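/-
Programme T1B (S44), brick F8 HECKE-N, slice S2-U (helper27): **the `U_ℓ` product formula**.

For a prime `ℓ ∣ N`, a field `L ⊇ ℚ` with a primitive `ℓ`-th root of unity `ζ`, and the degeneracy map
`β = heckeBetaBar L N ℓ : F_N → F_{Nℓ}` (`q ↦ q^ℓ`) of the Prelude:

  `(N_β y)(q^ℓ) = ∏_{j < ℓ} y(ζ^j q)`        for every `y ∈ F_{Nℓ} = L(j(q^d) : d ∣ Nℓ)`

(`qExpand_normAlong_beta`), because the `ℓ` twists `q ↦ ζ^j q` are `ℓ` distinct embeddings of `F_{Nℓ}`
over `β(F_N)` into `L((q))`, and `[F_{Nℓ} : β(F_N)] = ℓ` (`ES/P36/HeckeDeg19.finrankAlong_beta_of_dvd`).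

This is the function-level form of the TRANSPOSED Hecke correspondence `β_* α^*`
(`heckeDivBarTranspose`) at a prime dividing the level: `β_* α^* (div f) = div (N_β (α f))`, and
`N_β (α f) (q^ℓ) = ∏_j f(ζ^j q)`, i.e. `U_ℓ` on logarithmic derivatives
(`qExpand_normAlong_beta_alpha`).
-/
import Mathlib
import Fermat.Agent.ES.P36.HeckeDeg19
import Fermat.Agent.ES.HECKE.PointFormula28
import Fermat.Agent.ES.KRON.KronCong24

set_option autoImplicit false
set_option linter.unusedSectionVars false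
set_option linter.style.haveILetI false

noncomputable section

open HahnSeries ModularCurve IntermediateField AlgebraicCurve

namespace Fermat.Agent.T1B.UProd27

open Fermat.Agent.ES.KRON.KronCong24 Fermat.Agent.ES.HECKE.PointFormula28
open Fermat.Agent.ES.P36.HeckeDeg19 Fermat.Agent.ES.HECKE Fermat.Agent.RED.PUR

/-! ### twists -/

section Twist

variable {L : Type*} [Field L]

/-- the coefficient of `q⁻¹` of `j` is `1`. -/
theorem coeff_neg_one_twistU_jqModC (u : Lˣ) :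
    (twistU u (jqModC L)).coeff (-1) = ((u⁻¹ : Lˣ) : L) * (jqModC L).coeff (-1) := by
  rw [twistU_coeff, zpow_neg_one]

end Twist

/-! ### the product formula -/

section Main

variable (L : Type) [Field L] [Algebra ℚ L] (N ℓ : ℕ) [NeZero N] [NeZero ℓ]

/-- `j ∈ F_{M}` over `L`. -/
theorem jqModC_mem_bar (M : ℕ) [NeZero M] :
    jqModC L ∈ laurentBaseChange L (modularFunctionFieldFull M) := by
  rw [DegBaseChange25.laurentBaseChange_full_eq]
  exact jqModC_mem_full L M

variable {L N ℓ}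

local notation "F" => laurentBaseChange L (modularFunctionFieldFull N)
local notation "F'" => laurentBaseChange L (modularFunctionFieldFull (N * ℓ))

/-- **The `U_ℓ` product formula**: `(N_β y)(q^ℓ) = ∏_{j<ℓ} y(ζ^j q)`, `ℓ ∣ N` prime. -/
theorem qExpand_normAlong_beta (hℓ : ℓ.Prime) (hℓN : ℓ ∣ N) {ζ : Lˣ} (hζ : IsPrimitiveRoot ζ ℓ)
    (y : laurentBaseChange L (modularFunctionFieldFull (N * ℓ))) :
    qExpand L ℓ ((normAlong (heckeBetaBar L N ℓ) y :
        laurentBaseChange L (modularFunctionFieldFull N)) : LaurentSeries L) =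
      ∏ j ∈ Finset.range ℓ, twistU (ζ ^ j) (y : LaurentSeries L) := by
  classical
  have hchar : CharZero L := AlongDegree25.charZero_of_algebraRat L
  have hj1 : (jqModC L).coeff (-1) ≠ 0 := by
    rw [ModularCurve.coeff_jqModC_neg_one]
    exact one_ne_zero
  -- the fields
  letI algFF' : Algebra ↥F ↥F' := algebraAlong (heckeBetaBar L N ℓ)
  haveI : IsScalarTower L ↥F ↥F' := isScalarTower_along (heckeBetaBar L N ℓ)
  haveI hfin : Module.Finite ↥F ↥F' := finiteAlong_beta_of_dvd L N ℓ hℓ hℓN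
  haveI : CharZero ↥F := charZero_of_injective_algebraMap (algebraMap L ↥F).injective
  haveI : Algebra.IsSeparable ↥F ↥F' := inferInstance
  have hdeg : Module.finrank ↥F ↥F' = ℓ := finrankAlong_beta_of_dvd L N ℓ hℓ hℓN
  -- the big field
  let Ω := LaurentSeries L
  let E := AlgebraicClosure Ω
  let ιE : Ω →+* E := algebraMap Ω E
  -- `F → Ω`, `x ↦ x(q^ℓ)`
  let b : ↥F →+* Ω := ((F').val : ↥F' →+* Ω).comp (algebraMap ↥F ↥F')
  have hb : ∀ x : ↥F, b x = qExpand L ℓ (x : LaurentSeries L) := fun x => rfl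
  letI algFE : Algebra ↥F E := (ιE.comp b).toAlgebra
  have hFE : ∀ x : ↥F, algebraMap ↥F E x = ιE (qExpand L ℓ (x : LaurentSeries L)) := fun x => rfl
  -- the twisted embeddings
  have hpow : ∀ j : ℕ, (ζ ^ j) ^ ℓ = 1 := fun j => by
    rw [← pow_mul, mul_comm, pow_mul, hζ.pow_eq_one, one_pow]
  let σ : Fin ℓ → (↥F' →ₐ[↥F] E) := fun j =>
    { toRingHom := ιE.comp ((twistU (ζ ^ (j : ℕ))).comp ((F').val : ↥F' →+* Ω))
      commutes' := fun x => by
        show ιE (twistU (ζ ^ (j : ℕ)) ((algebraMap ↥F ↥F' x : ↥F') : LaurentSeries L)) = _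
        rw [hFE]
        congr 1
        show twistU (ζ ^ (j : ℕ)) (qExpand L ℓ (x : LaurentSeries L)) = _
        exact twistU_qExpand ℓ (ζ ^ (j : ℕ)) (hpow j) _ }
  have hσ : ∀ (j : Fin ℓ) (z : ↥F'), σ j z = ιE (twistU (ζ ^ (j : ℕ)) (z : LaurentSeries L)) :=
    fun j z => rfl
  -- they are pairwise distinct
  have hσinj : Function.Injective σ := by
    intro j k hjk
    have h1 := congrArg (fun s : ↥F' →ₐ[↥F] E => s ⟨jqModC L, jqModC_mem_bar L (N * ℓ)⟩) hjk
    simp only [hσ] at h1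
    have h2 := ιE.injective h1
    have h3 := congrArg (fun s : LaurentSeries L => s.coeff (-1)) h2
    simp only [coeff_neg_one_twistU_jqModC] at h3
    have h4 : (((ζ ^ (j : ℕ))⁻¹ : Lˣ) : L) = (((ζ ^ (k : ℕ))⁻¹ : Lˣ) : L) :=
      mul_right_cancel₀ hj1 h3
    have h5 : ζ ^ (j : ℕ) = ζ ^ (k : ℕ) := inv_injective (Units.ext h4)
    exact Fin.ext (hζ.pow_inj j.2 k.2 h5)
  -- hence they are all the embeddings
  have hcard : Fintype.card (Fin ℓ) = Fintype.card (↥F' →ₐ[↥F] E) := by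
    rw [Fintype.card_fin, AlgHom.card ↥F ↥F' E, hdeg]
  have hbij : Function.Bijective σ :=
    (Fintype.bijective_iff_injective_and_card σ).mpr ⟨hσinj, hcard⟩
  -- the norm
  have hnorm := Algebra.norm_eq_prod_embeddings ↥F E y
  rw [← Fintype.prod_bijective σ hbij (fun j => σ j y) (fun s => s y) (fun j => rfl)] at hnorm
  simp only [hσ] at hnorm
  rw [hFE, ← map_prod, Fin.prod_univ_eq_prod_range
    (fun j : ℕ => twistU (ζ ^ j) (y : LaurentSeries L)) ℓ] at hnorm
  have hfinal := ιE.injective hnorm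
  exact hfinal

/-- **The `U_ℓ` product formula for the transposed correspondence**:
`N_β (α f) (q^ℓ) = ∏_{j<ℓ} f(ζ^j q)`. -/
theorem qExpand_normAlong_beta_alpha (hℓ : ℓ.Prime) (hℓN : ℓ ∣ N) {ζ : Lˣ}
    (hζ : IsPrimitiveRoot ζ ℓ)
    (f : laurentBaseChange L (modularFunctionFieldFull N)) :
    qExpand L ℓ ((normAlong (heckeBetaBar L N ℓ) (heckeAlphaBar L N ℓ f) :
        laurentBaseChange L (modularFunctionFieldFull N)) : LaurentSeries L) =
      ∏ j ∈ Finset.range ℓ, twistU (ζ ^ j) (f : LaurentSeries L) := by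
  rw [qExpand_normAlong_beta hℓ hℓN hζ, coe_heckeAlphaBar]

end Main

/-! ### the divisor form over `ℚ̄` -/

section Qbar

open Fermat.Agent.ES.HECKE.InputsMain19

variable {N ℓ : ℕ} [NeZero N] [NeZero ℓ]

/-- **The transposed Hecke correspondence `β_* α^*` at a prime `ℓ ∣ N` on a principal divisor**:
`β_* α^* (div f) = div (N_β (α f))`, where `N_β (α f) (q^ℓ) = ∏_{j<ℓ} f(ζ^j q)`
(`qExpand_normAlong_beta_alpha`). -/
theorem heckeDivBarTranspose_eq_ord_norm (hℓ : ℓ.Prime) (hℓN : ℓ ∣ N)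
    [HasPrincipalDivisors Qb (laurentBaseChange Qb (modularFunctionFieldFull (N * ℓ)))]
    {f : laurentBaseChange Qb (modularFunctionFieldFull N)} (hf : f ≠ 0)
    {D : Divisor Qb (laurentBaseChange Qb (modularFunctionFieldFull N))}
    (hD : ∀ v : Place Qb (laurentBaseChange Qb (modularFunctionFieldFull N)), D v = v.ord f)
    (v : Place Qb (laurentBaseChange Qb (modularFunctionFieldFull N))) :
    heckeDivBarTranspose (heckeAlphaBarIntegral_of_dvd Qb N ℓ hℓ hℓN)
        (heckeBetaBarIntegral_of_dvd Qb N ℓ hℓ hℓN) D v =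
      v.ord (normAlong (heckeBetaBar Qb N ℓ) (heckeAlphaBar Qb N ℓ f)) :=
  correspondence_eq_ord_norm (heckeAlphaBar Qb N ℓ) (heckeBetaBar Qb N ℓ)
    (heckeAlphaBarIntegral_of_dvd Qb N ℓ hℓ hℓN) (heckeBetaBarIntegral_of_dvd Qb N ℓ hℓ hℓN)
    (finiteAlong_beta_of_dvd Qb N ℓ hℓ hℓN) (normFormulaAlong_beta_of_dvd N ℓ hℓ hℓN) hf hD v

end Qbar

end Fermat.Agent.T1B.UProd27
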